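import Fermat.Agent.FormCount.Roots
import Fermat.Agent.GenusTheory.Count
import Mathlib.NumberTheory.DirichletCharacter.Basic
import Mathlib.Analysis.Complex.Basic

/-!
# The Kronecker character of a discriminant

`(D / ·)` is a character modulo `|D|`, and the character of `D f²` comes from it by a change of
level.
-/

set_option autoImplicit false

noncomputable section

namespace FA.FormClassFormula

open FA.FormCount FA.GenusTheory

variable {D : ℤ}

theorem odd_of_coprime_even {m : ℕ} (hev : ¬Odd D) (hc : IsCoprime (m : ℤ) D) : Odd m := by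
  rw [← Nat.not_even_iff_odd]
  intro he
  exact Int.prime_two.not_isUnit (hc.isUnit_of_dvd' (by exact_mod_cast he.two_dvd)
    (Int.not_odd_iff_even.1 hev).two_dvd)

/-- The symbol depends on the residue modulo `D`. -/
theorem kronecker_periodic (hD4 : D % 4 = 0 ∨ D % 4 = 1) {a b : ℕ} (ha : IsCoprime (a : ℤ) D)
    (hb : IsCoprime (b : ℤ) D) (h : (a : ℤ) ≡ b [ZMOD D]) : kronecker D a = kronecker D b := by
  unfold kronecker
  split_ifs with hodd
  · refine jacobiSym.mod_left' (Int.modEq_iff_dvd.2 ?_)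
    rw [Int.natAbs_dvd]
    exact h.dvd
  · exact GenusPrimes.jacobi_periodic hD4 (odd_of_coprime_even hodd ha)
      (odd_of_coprime_even hodd hb) h

theorem kronecker_cases {m : ℕ} (hm : IsCoprime (m : ℤ) D) :
    kronecker D m = 1 ∨ kronecker D m = -1 := by
  have hg : Int.gcd D m = 1 := Int.isCoprime_iff_gcd_eq_one.1 hm.symm
  unfold kronecker
  split_ifs
  · exact jacobiSym.eq_one_or_neg_one (by
      simpa [Int.gcd_eq_natAbs, Nat.gcd_comm, Int.natAbs_abs] using hg)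
  · exact jacobiSym.eq_one_or_neg_one hg

/-- The symbol at a prime divisor of `D`. -/
theorem kronecker_eq_zero {p : ℕ} (hp : p.Prime) (h : (p : ℤ) ∣ D) : kronecker D p = 0 := by
  have : Fact p.Prime := ⟨hp⟩
  unfold kronecker
  split_ifs with hodd
  · have : NeZero D.natAbs := ⟨Int.natAbs_ne_zero.2 fun h0 => by simp [h0] at hodd⟩
    refine jacobiSym.eq_zero_iff_not_coprime.2 fun e => hp.ne_one ?_
    exact Nat.eq_one_of_dvd_one (e ▸ Int.natCast_dvd_natCast.1
      (Int.dvd_coe_gcd dvd_rfl (Int.dvd_natAbs.2 h)))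
  · rw [← jacobiSym.legendreSym.to_jacobiSym, legendreSym.eq_zero_iff]
    exact (ZMod.intCast_zmod_eq_zero_iff_dvd _ _).2 h

/-- The least residue of a unit modulo `|D|`. -/
theorem val_coprime (u : (ZMod D.natAbs)ˣ) : IsCoprime ((u : ZMod D.natAbs).val : ℤ) D := by
  rw [Int.isCoprime_iff_nat_coprime]
  simpa using ZMod.val_coe_unit_coprime u

theorem val_modEq {u : (ZMod D.natAbs)ˣ} {m : ℕ}
    (hu : (u : ZMod D.natAbs) = m) : ((u : ZMod D.natAbs).val : ℤ) ≡ m [ZMOD D] := by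
  rw [hu, Int.modEq_iff_dvd, ZMod.val_natCast, Int.natCast_mod]
  exact (Int.dvd_natAbs.2 dvd_rfl).trans (Int.dvd_self_sub_emod)

/-- The symbol on the units. -/
def unitHom (hD0 : D ≠ 0) (hD4 : D % 4 = 0 ∨ D % 4 = 1) : (ZMod D.natAbs)ˣ →* ℤˣ where
  toFun u := if kronecker D (u : ZMod D.natAbs).val = 1 then 1 else -1
  map_one' := by
    have : NeZero D.natAbs := ⟨Int.natAbs_ne_zero.2 hD0⟩
    rw [kronecker_periodic hD4 (b := 1) (val_coprime 1) (by simp [isCoprime_one_left])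
      (val_modEq (by simp)), kronecker_one, if_pos rfl]
  map_mul' u v := by
    have : NeZero D.natAbs := ⟨Int.natAbs_ne_zero.2 hD0⟩
    have hu := val_coprime u
    have hv := val_coprime v
    by_cases hN : D.natAbs = 1
    · have hD1 : D = 1 := by omega
      subst hD1
      simp [kronecker]
    have hval : ∀ w : (ZMod D.natAbs)ˣ, (w : ZMod D.natAbs).val ≠ 0 := fun w h => hN (by
      simpa [h] using ZMod.val_coe_unit_coprime w)
    have e : kronecker D ((u * v : (ZMod D.natAbs)ˣ) : ZMod D.natAbs).val =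
        kronecker D (u : ZMod D.natAbs).val * kronecker D (v : ZMod D.natAbs).val := by
      rw [← kronecker_mul D (hval u) (hval v)]
      refine kronecker_periodic hD4 (val_coprime _)
        (by rw [Nat.cast_mul]; exact hu.mul_left hv) (val_modEq ?_)
      rw [Units.val_mul, Nat.cast_mul, ZMod.natCast_zmod_val, ZMod.natCast_zmod_val]
    rw [e]
    rcases kronecker_cases hu with a | a <;> rcases kronecker_cases hv with b | b <;> simp [a, b]

/-- The Kronecker character. -/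
def chi (hD0 : D ≠ 0) (hD4 : D % 4 = 0 ∨ D % 4 = 1) : DirichletCharacter ℂ D.natAbs :=
  MulChar.ofUnitHom ((Units.map (Int.castRingHom ℂ).toMonoidHom).comp (unitHom hD0 hD4))

theorem chi_natCast (hD0 : D ≠ 0) (hD4 : D % 4 = 0 ∨ D % 4 = 1) {m : ℕ}
    (hm : IsCoprime (m : ℤ) D) : chi hD0 hD4 (m : ZMod D.natAbs) = (kronecker D m : ℂ) := by
  have hc : m.Coprime D.natAbs := by
    have := Int.isCoprime_iff_nat_coprime.1 hm
    simpa using this
  have e := ZMod.coe_unitOfCoprime m hc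
  rw [← e, chi, MulChar.ofUnitHom_coe, MonoidHom.comp_apply, Units.coe_map]
  have h := kronecker_periodic hD4 (val_coprime _) hm (val_modEq e)
  show ((((if _ = 1 then (1 : ℤˣ) else -1) : ℤˣ) : ℤ) : ℂ) = _
  rw [h]
  rcases kronecker_cases hm with a | a <;> simp [a]

theorem chi_eq_zero (hD0 : D ≠ 0) (hD4 : D % 4 = 0 ∨ D % 4 = 1) {m : ℕ}
    (hm : ¬IsCoprime (m : ℤ) D) : chi hD0 hD4 (m : ZMod D.natAbs) = 0 :=
  MulChar.map_nonunit _ fun h => hm (by
    rw [Int.isCoprime_iff_nat_coprime]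
    simpa using (ZMod.isUnit_iff_coprime m D.natAbs).1 h)

theorem chi_ne_one (hns : ¬IsSquare D) (hD0 : D ≠ 0) (hD4 : D % 4 = 0 ∨ D % 4 = 1) :
    chi hD0 hD4 ≠ 1 := by
  intro h
  obtain ⟨m, hm, hc, hJ⟩ := exists_symbol_neg hns
  have h1 := chi_natCast hD0 hD4 hc
  rw [h, MulChar.one_apply ((ZMod.isUnit_iff_coprime _ _).2 (by
    simpa using Int.isCoprime_iff_nat_coprime.1 hc)), kronecker_of_odd hD4 hm, hJ] at h1
  norm_num at h1

/-- The symbols of `D` and `D f²` agree at the numbers prime to `D f`. -/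
theorem kronecker_mul_sq (hD4 : D % 4 = 0 ∨ D % 4 = 1) {f m : ℕ} (hf : f ≠ 0)
    (hE4 : D * (f : ℤ) ^ 2 % 4 = 0 ∨ D * (f : ℤ) ^ 2 % 4 = 1)
    (hm : IsCoprime (m : ℤ) (D * (f : ℤ) ^ 2)) :
    kronecker (D * (f : ℤ) ^ 2) m = kronecker D m := by
  have hmf : IsCoprime (f : ℤ) (m : ℤ) := (hm.of_mul_right_right.of_isCoprime_of_dvd_right
    (dvd_pow_self _ two_ne_zero)).symm
  rcases Nat.even_or_odd m with he | ho
  swap
  · rw [kronecker_of_odd hE4 ho, kronecker_of_odd hD4 ho, jacobiSym.mul_left,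
      jacobiSym.sq_one' (Int.isCoprime_iff_gcd_eq_one.1 hmf), mul_one]
  · have hE : Odd (D * (f : ℤ) ^ 2) := by
      rw [← Int.not_even_iff_odd]
      exact fun h => Int.prime_two.not_isUnit (hm.isUnit_of_dvd'
        (by exact_mod_cast he.two_dvd) h.two_dvd)
    have hD0 : D ≠ 0 := fun h => by simp [h] at hE
    rw [kronecker, if_pos hE, kronecker, if_pos (Int.odd_mul.1 hE).1, Int.natAbs_mul,
      Int.natAbs_pow, Int.natAbs_natCast, jacobiSym.mul_right' _ (Int.natAbs_ne_zero.2 hD0)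
        (pow_ne_zero 2 hf), jacobiSym.pow_right, jacobiSym.sq_one
        (Int.isCoprime_iff_gcd_eq_one.1 hmf.symm), mul_one]

theorem chi_changeLevel (hD0 : D ≠ 0) (hD4 : D % 4 = 0 ∨ D % 4 = 1) {f : ℕ} (hf : f ≠ 0)
    (hE0 : D * (f : ℤ) ^ 2 ≠ 0) (hE4 : D * (f : ℤ) ^ 2 % 4 = 0 ∨ D * (f : ℤ) ^ 2 % 4 = 1)
    (hdvd : D.natAbs ∣ (D * (f : ℤ) ^ 2).natAbs) :
    chi hE0 hE4 = DirichletCharacter.changeLevel hdvd (chi hD0 hD4) := by
  have : NeZero (D * (f : ℤ) ^ 2).natAbs := ⟨Int.natAbs_ne_zero.2 hE0⟩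
  refine MulChar.ext fun u => ?_
  obtain ⟨m, hm⟩ : ∃ m : ℕ, (m : ZMod (D * (f : ℤ) ^ 2).natAbs) = u :=
    ⟨_, ZMod.natCast_zmod_val _⟩
  have hc : IsCoprime (m : ℤ) (D * (f : ℤ) ^ 2) := by
    rw [Int.isCoprime_iff_nat_coprime]
    simpa using (ZMod.isUnit_iff_coprime m _).1 (hm ▸ u.isUnit)
  rw [DirichletCharacter.changeLevel_eq_cast_of_dvd (chi hD0 hD4) hdvd u, ← hm,
    ZMod.cast_natCast hdvd, chi_natCast hE0 hE4 hc, chi_natCast hD0 hD4 hc.of_mul_right_left,
    kronecker_mul_sq hD4 hf hE4 hc]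

end FA.FormClassFormula
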