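import Fermat.Agent.ThetaOne.OrderPoints
import Fermat.Agent.GaussDuplication.Main

/-!
# The lattice points of a form with values prime to the discriminant

A positive form of discriminant `D` with first coefficient prime to `D` takes a value at most `X`
prime to `D` at about `2 π X ∏ (1 - 1/p) / √|D|` points, `p` running through the primes of `D`.
-/

set_option autoImplicit false

noncomputable section

open Filter Topology
open scoped Real

namespace FA.FormClassFormula

open FA.GaussComposition FA.Theta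

variable {D : ℤ}

/-- The doubled form after `(x, y) ↦ (d x - t y, y)`, as a form with even middle coefficient. -/
def doubled (hneg : D < 0) (g : Form D) {d : ℕ} (hd : 0 < d) (t : ℤ) :
    BQF (d ^ 2 * D.natAbs) :=
  ⟨2 * g.a * d ^ 2, d * (g.b - 2 * g.a * t), 2 * g.eval (-t) 1, by
      have := g.pos hneg
      have : (0 : ℤ) < d := by exact_mod_cast hd
      positivity, by
      rw [Nat.cast_mul, Nat.cast_pow, Int.natCast_natAbs, abs_of_neg hneg, Form.eval]
      linear_combination (-(d : ℤ) ^ 2) * g.disc,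
    Nat.mul_pos (pow_pos hd 2) (Int.natAbs_pos.2 hneg.ne)⟩

theorem doubled_val (hneg : D < 0) (g : Form D) {d : ℕ} (hd : 0 < d) (t : ℤ) (v : ℤ × ℤ) :
    (doubled hneg g hd t).val v = 2 * g.eval (d * v.1 - t * v.2) v.2 := by
  simp only [BQF.val, Int.cast_id, doubled, Form.eval]
  ring

theorem finite_eval_le (hneg : D < 0) (g : Form D) (X : ℤ) :
    {v : ℤ × ℤ | g.eval v.1 v.2 ≤ X}.Finite := by
  refine (OrderTheta.finite_val_le (doubled hneg g one_pos 0) (2 * X)).subset fun v hv => ?_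
  simp only [Set.mem_ofPred_eq, doubled_val, Nat.cast_one, one_mul, zero_mul, sub_zero] at hv ⊢
  linarith

theorem ncard_dvd (hneg : D < 0) (g : Form D) {d : ℕ} (hd : 0 < d) (t : ℤ) (X : ℤ) :
    {v : ℤ × ℤ | g.eval v.1 v.2 ≤ X ∧ (d : ℤ) ∣ v.1 + t * v.2}.ncard =
      {v : ℤ × ℤ | (doubled hneg g hd t).val v ≤ 2 * X}.ncard := by
  have hd' : (d : ℤ) ≠ 0 := Int.natCast_ne_zero.2 hd.ne'
  set φ : ℤ × ℤ → ℤ × ℤ := fun v => ((d : ℤ) * v.1 - t * v.2, v.2)
  have hφ : Function.Injective φ := fun v v' h => by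
    have h1 := congrArg Prod.fst h
    have h2 : v.2 = v'.2 := (congrArg Prod.snd h : (φ v).2 = (φ v').2)
    simp only [φ, h2, sub_left_inj] at h1
    exact Prod.ext (mul_left_cancel₀ hd' h1) h2
  rw [← Set.ncard_image_of_injective {v | (doubled hneg g hd t).val v ≤ 2 * X} hφ]
  congr 1
  ext v
  simp only [Set.mem_ofPred_eq, Set.mem_image, doubled_val, mul_le_mul_iff_right₀ two_pos]
  constructor
  · rintro ⟨hv, k, hk⟩
    have e : (d : ℤ) * k - t * v.2 = v.1 := by linarith
    exact ⟨(k, v.2), by simp only; rw [e]; exact hv, Prod.ext e rfl⟩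
  · rintro ⟨z, hz, rfl⟩
    exact ⟨hz, z.1, by simp only [φ]; ring⟩

/-- Modulo every prime of `D` the form is a multiple of the square of one linear form. -/
theorem exists_linear (g : Form D) (ha : IsCoprime g.a D) :
    ∃ t : ℤ, ∀ p ∈ D.natAbs.primeFactors, ∀ x y : ℤ,
      ((p : ℤ) ∣ g.eval x y ↔ (p : ℤ) ∣ x + t * y) := by
  have hloc : ∀ p ∈ D.natAbs.primeFactors, ∃ r : ℤ, ∀ x y : ℤ,
      ((p : ℤ) ∣ g.eval x y ↔ (p : ℤ) ∣ x + r * y) := fun p hp => by
    have hpp := Nat.prime_of_mem_primeFactors hp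
    have hpi := Nat.prime_iff_prime_int.1 hpp
    have hpD : (p : ℤ) ∣ D := Int.natCast_dvd.2 (Nat.dvd_of_mem_primeFactors hp)
    have hpa : ¬(p : ℤ) ∣ g.a := fun h => hpi.not_isUnit (ha.isUnit_of_dvd' h hpD)
    rcases hpp.eq_two_or_odd' with rfl | hodd
    · obtain ⟨i, hi⟩ : ∃ i, g.a = 2 * i + 1 := (Int.not_even_iff_odd.1 fun h => hpa (by
        exact_mod_cast h.two_dvd))
      obtain ⟨j, hj⟩ : ∃ j, g.b = 2 * j := by
        refine Int.prime_two.dvd_of_dvd_pow (n := 2) ?_
        rw [show g.b ^ 2 = D + 2 * (2 * g.a * g.c) by linear_combination g.disc]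
        exact (by exact_mod_cast hpD : (2 : ℤ) ∣ D).add (dvd_mul_right _ _)
      refine ⟨g.c, fun x y => ?_⟩
      obtain ⟨u, hu⟩ := (Int.even_mul_pred_self x).two_dvd
      obtain ⟨w, hw⟩ := (Int.even_mul_pred_self y).two_dvd
      have e : g.eval x y = x + g.c * y + 2 * (i * x ^ 2 + u + j * x * y + g.c * w) := by
        simp only [Form.eval]
        rw [hi, hj]
        linear_combination hu + g.c * hw
      push_cast
      rw [e, dvd_add_left (dvd_mul_right _ _)]
    · have h2a : IsCoprime (2 * g.a) (p : ℤ) := by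
        refine (hpi.coprime_iff_not_dvd.2 fun h => ?_).symm
        rcases hpi.dvd_or_dvd h with h | h
        · obtain rfl := (Nat.prime_dvd_prime_iff_eq hpp Nat.prime_two).1
            (Int.natCast_dvd_natCast.1 (by exact_mod_cast h))
          exact absurd hodd (by decide)
        · exact hpa h
      obtain ⟨u, v, huv⟩ := h2a
      refine ⟨u * g.b, fun x y => ?_⟩
      have key : 4 * g.a * g.eval x y =
          (2 * g.a) ^ 2 * (x + u * g.b * y) ^ 2 +
            (p : ℤ) * (v * g.b * y * (2 * (2 * g.a) * (x + u * g.b * y) + v * g.b * p * y)) -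
              D * y ^ 2 := by
        simp only [Form.eval]
        linear_combination (-y ^ 2) * g.disc -
          g.b * y * (4 * g.a * x + 2 * g.a * u * g.b * y + v * (p : ℤ) * g.b * y + g.b * y) * huv
      have hco : IsCoprime (2 * g.a) (p : ℤ) := ⟨u, v, huv⟩
      have h4 : ¬(p : ℤ) ∣ 2 * g.a := fun h => hpi.not_isUnit (hco.isUnit_of_dvd' h dvd_rfl)
      constructor
      · intro h
        have h1 : (p : ℤ) ∣ (2 * g.a) ^ 2 * (x + u * g.b * y) ^ 2 := by
          rw [show (2 * g.a) ^ 2 * (x + u * g.b * y) ^ 2 = 4 * g.a * g.eval x y -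
            (p : ℤ) * (v * g.b * y * (2 * (2 * g.a) * (x + u * g.b * y) + v * g.b * p * y)) +
              D * y ^ 2 by linarith]
          exact ((h.mul_left _).sub (dvd_mul_right _ _)).add (hpD.mul_right _)
        exact hpi.dvd_of_dvd_pow
          ((hpi.dvd_or_dvd h1).resolve_left fun h' => h4 (hpi.dvd_of_dvd_pow h'))
      · intro h
        have h1 : (p : ℤ) ∣ 4 * g.a * g.eval x y := by
          rw [key]
          exact (((dvd_pow h two_ne_zero).mul_left _).add (dvd_mul_right _ _)).sub (hpD.mul_right _)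
        refine (hpi.dvd_or_dvd h1).resolve_left fun h' => h4 ?_
        rw [show 4 * g.a = 2 * (2 * g.a) by ring] at h'
        rcases hpi.dvd_or_dvd h' with h' | h'
        · exact h'.mul_right _
        · exact h'
  choose! r hr using hloc
  obtain ⟨t, ht⟩ := GaussDuplication.exists_crt r 1 D.natAbs.primeFactors fun p hp =>
    Nat.prime_of_mem_primeFactors hp
  refine ⟨t, fun p hp x y => (hr p hp x y).trans ?_⟩
  have h := ht p hp
  rw [pow_one] at h
  rw [show x + t * y = x + r p * y + (t - r p) * y by ring, dvd_add_left (h.mul_right y)]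

/-- **The points with values prime to `D`.** -/
theorem tendsto_card_eval (hneg : D < 0) (g : Form D) (ha : IsCoprime g.a D) :
    Tendsto (fun X : ℕ => ({v : ℤ × ℤ | g.eval v.1 v.2 ≤ (X : ℤ) ∧
        IsCoprime (g.eval v.1 v.2) D}.ncard : ℝ) / X) atTop
      (𝓝 (2 * π / Real.sqrt D.natAbs * ∏ p ∈ D.natAbs.primeFactors, (1 - (p : ℝ)⁻¹))) := by
  classical
  obtain ⟨t, ht⟩ := exists_linear g ha
  set P := D.natAbs.primeFactors with hPdef
  have hP : ∀ {p}, p ∈ P → p.Prime := fun {p} h => Nat.prime_of_mem_primeFactors h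
  let S : ℕ → Finset (ℤ × ℤ) := fun X => (finite_eval_le hneg g X).toFinset
  have hmem : ∀ X v, v ∈ S X ↔ g.eval v.1 v.2 ≤ (X : ℤ) := fun X v => by simp [S]
  -- inclusion and exclusion
  have hind : ∀ v : ℤ × ℤ, (if IsCoprime (g.eval v.1 v.2) D then (1 : ℝ) else 0) =
      ∑ T ∈ P.powerset, (-1 : ℝ) ^ T.card *
        if ((∏ p ∈ T, p : ℕ) : ℤ) ∣ v.1 + t * v.2 then (1 : ℝ) else 0 := fun v => by
    have hprod : ∀ T ∈ P.powerset,
        (if ((∏ p ∈ T, p : ℕ) : ℤ) ∣ v.1 + t * v.2 then (1 : ℝ) else 0) =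
          ∏ p ∈ T, if (p : ℤ) ∣ v.1 + t * v.2 then (1 : ℝ) else 0 := by
      intro T hT
      rw [Finset.mem_powerset] at hT
      rw [Finset.prod_boole]
      refine if_congr ?_ rfl rfl
      exact ⟨fun h p hp => (Int.natCast_dvd_natCast.2 (Finset.dvd_prod_of_mem _ hp)).trans h,
        fun h => Int.natCast_dvd.2 (Finset.prod_primes_dvd _ (fun p hp => (hP (hT hp)).prime)
          fun p hp => Int.natCast_dvd.1 (h p hp))⟩
    have hsub := Finset.prod_sub (fun _ : ℕ => (1 : ℝ))
      (fun p : ℕ => if (p : ℤ) ∣ v.1 + t * v.2 then (1 : ℝ) else 0) P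
    simp only [Finset.prod_const_one, mul_one] at hsub
    rw [Finset.sum_congr rfl fun T hT => by rw [hprod T hT], ← hsub]
    split_ifs with h
    · refine (Finset.prod_eq_one fun p hp => ?_).symm
      rw [if_neg fun hl => (Nat.prime_iff_prime_int.1 (hP hp)).not_isUnit
        (h.isUnit_of_dvd' ((ht p hp _ _).2 hl)
          (Int.natCast_dvd.2 (Nat.dvd_of_mem_primeFactors hp))), sub_zero]
    · rw [Int.isCoprime_iff_nat_coprime] at h
      obtain ⟨p, hp, hpv, hpn⟩ := Nat.Prime.not_coprime_iff_dvd.1 h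
      have hpP : p ∈ P :=
        Nat.mem_primeFactors.2 ⟨hp, hpn, Int.natAbs_ne_zero.2 hneg.ne⟩
      refine (Finset.prod_eq_zero hpP ?_).symm
      rw [if_pos ((ht p hpP _ _).1 (Int.natCast_dvd.2 hpv)), sub_self]
  have hcount : ∀ X : ℕ, ({v : ℤ × ℤ | g.eval v.1 v.2 ≤ (X : ℤ) ∧
      IsCoprime (g.eval v.1 v.2) D}.ncard : ℝ) =
      ∑ T ∈ P.powerset, (-1 : ℝ) ^ T.card * ({v : ℤ × ℤ | g.eval v.1 v.2 ≤ (X : ℤ) ∧
        ((∏ p ∈ T, p : ℕ) : ℤ) ∣ v.1 + t * v.2}.ncard : ℝ) := fun X => by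
    have e : ∀ (q : ℤ × ℤ → Prop) [DecidablePred q],
        ({v : ℤ × ℤ | g.eval v.1 v.2 ≤ (X : ℤ) ∧ q v}.ncard : ℝ) =
          ∑ v ∈ S X, if q v then (1 : ℝ) else 0 := fun q _ => by
      rw [Finset.sum_boole, ← Set.ncard_coe_finset]
      congr 2
      ext v
      simp [hmem]
    simp only [e]
    rw [Finset.sum_congr rfl fun v _ => hind v, Finset.sum_comm]
    simp only [Finset.mul_sum]
  have hlim : ∀ T ∈ P.powerset, Tendsto (fun X : ℕ => (-1 : ℝ) ^ T.card *
      (({v : ℤ × ℤ | g.eval v.1 v.2 ≤ (X : ℤ) ∧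
        ((∏ p ∈ T, p : ℕ) : ℤ) ∣ v.1 + t * v.2}.ncard : ℝ) / X)) atTop
      (𝓝 ((-1 : ℝ) ^ T.card *
        (2 * π / Real.sqrt D.natAbs * ∏ p ∈ T, (p : ℝ)⁻¹))) := by
    intro T hT
    rw [Finset.mem_powerset] at hT
    have hd : 0 < ∏ p ∈ T, p := Finset.prod_pos fun p hp => (hP (hT hp)).pos
    refine Tendsto.const_mul _ ?_
    generalize hdd : (∏ p ∈ T, p) = d at hd
    have hval : 2 * π / Real.sqrt D.natAbs * ∏ p ∈ T, (p : ℝ)⁻¹ =
        2 * (π / Real.sqrt ((d ^ 2 * D.natAbs : ℕ) : ℝ)) := by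
      rw [Finset.prod_inv_distrib, ← Nat.cast_prod, hdd, Nat.cast_mul, Nat.cast_pow,
        Real.sqrt_mul (by positivity), Real.sqrt_sq (Nat.cast_nonneg d)]
      ring
    rw [hval]
    have h := ((OrderTheta.tendsto_card_ellipse (doubled hneg g hd t)).comp
      (tendsto_id.const_mul_atTop' (show 0 < 2 by norm_num))).const_mul (2 : ℝ)
    refine h.congr fun X => ?_
    rw [Function.comp_apply, ncard_dvd hneg g hd t]
    simp only [id_eq, Nat.cast_mul, Nat.cast_ofNat]
    rcases eq_or_ne (X : ℝ) 0 with e | e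
    · simp [e]
    · field_simp
  have hsum : 2 * π / Real.sqrt D.natAbs * ∏ p ∈ P, (1 - (p : ℝ)⁻¹) =
      ∑ T ∈ P.powerset, (-1 : ℝ) ^ T.card *
        (2 * π / Real.sqrt D.natAbs * ∏ p ∈ T, (p : ℝ)⁻¹) := by
    rw [Finset.prod_sub, Finset.mul_sum]
    simp only [Finset.prod_const_one, mul_one]
    exact Finset.sum_congr rfl fun T _ => by ring
  rw [hsum]
  refine (tendsto_finsetSum P.powerset hlim).congr fun X => ?_
  rw [hcount, Finset.sum_div]
  exact Finset.sum_congr rfl fun T _ => by ring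

end FA.FormClassFormula
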