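import Fermat.Agent.FormClassFormula.Character
import Fermat.Agent.FormClassFormula.Points
import Fermat.Agent.Root.SummaryFormCount
import Mathlib.NumberTheory.LSeries.DirichletContinuation
import Mathlib.NumberTheory.LSeries.SumCoeff
import Mathlib.NumberTheory.LSeries.Convolution

/-!
# The class number formula for every negative discriminant

`w⁻¹` times the number of representations by a system of classes is the convolution of the trivial
character and `(D / ·)`, so the average number of lattice points gives `L(1, χ)`; the change of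
level from `D` to `D f²` then compares the class numbers.
-/

set_option autoImplicit false

noncomputable section

open Filter Topology
open scoped Real LSeries.notation

namespace FA.FormClassFormula

open FA.GaussComposition FA.FormCount

variable {D : ℤ}

theorem card_formClass (hneg : D < 0) {R : Finset (Form D)}
    (hR : ∀ f : Form D, ∃! g, g ∈ R ∧ g.Equivalent f) : Nat.card (FormClass D) = R.card := by
  have hns := GenusPrimes.not_isSquare_of_neg hneg
  rw [← Nat.card_eq_finsetCard]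
  symm
  refine Nat.card_eq_of_bijective (fun g : R => g.1.cl) ⟨fun g g' h => ?_, fun x => ?_⟩
  · obtain ⟨k, -, hk⟩ := hR g.1
    exact Subtype.ext ((hk g.1 ⟨g.2, (cl_eq_iff hns).1 rfl⟩).trans
      (hk g'.1 ⟨g'.2, (cl_eq_iff hns).1 h.symm⟩).symm)
  · obtain ⟨f, rfl⟩ := Quot.exists_rep x
    obtain ⟨g, ⟨hg, hge⟩, -⟩ := hR f
    exact ⟨⟨g, hg⟩, Quot.sound hge⟩

/-- Every class has a form with first coefficient prime to `D`. -/
theorem exists_coprime_a (hneg : D < 0) (f : Form D) :
    ∃ g : Form D, f.Equivalent g ∧ IsCoprime g.a D := by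
  obtain ⟨x, y, hxy, hc⟩ := f.exists_coprime_value hneg.ne
  obtain ⟨u, v, huv⟩ := hxy
  obtain ⟨g, hg, hga, -⟩ := f.exists_transform (GenusPrimes.not_isSquare_of_neg hneg)
    (p := x) (q := -v) (r := y) (s := u) (by linear_combination huv)
  exact ⟨g, hg, by rwa [hga]⟩

/-- The average number of representations by one class. -/
theorem tendsto_sum_reps (hneg : D < 0) (f : Form D) :
    Tendsto (fun X : ℕ => (∑ k ∈ Finset.Icc 1 X, if k.Coprime D.natAbs then
        (Nat.card {v : ℤ × ℤ // f.eval v.1 v.2 = k} : ℝ) else 0) / X) atTop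
      (𝓝 (2 * π / Real.sqrt D.natAbs * ∏ p ∈ D.natAbs.primeFactors, (1 - (p : ℝ)⁻¹))) := by
  classical
  obtain ⟨g, hfg, ha⟩ := exists_coprime_a hneg f
  refine (tendsto_card_eval hneg g ha).congr fun X => ?_
  congr 1
  set S := (finite_eval_le hneg g X).toFinset.filter fun v => IsCoprime (g.eval v.1 v.2) D with hS
  have hcard : {v : ℤ × ℤ | g.eval v.1 v.2 ≤ (X : ℤ) ∧ IsCoprime (g.eval v.1 v.2) D}.ncard =
      S.card := by
    rw [← Set.ncard_coe_finset]
    congr 1
    ext v
    simp [hS]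
  have hnn := GenusPrimes.eval_nonneg hneg g
  have hmaps : ∀ v ∈ S, (g.eval v.1 v.2).natAbs ∈ Finset.Icc 1 X := fun v hv => by
    obtain ⟨hv, hc⟩ := Finset.mem_filter.1 hv
    rw [Set.Finite.mem_toFinset, Set.mem_ofPred_eq] at hv
    have := hnn v.1 v.2
    refine Finset.mem_Icc.2 ⟨Nat.one_le_iff_ne_zero.2 fun e => ?_, by omega⟩
    rw [Int.natAbs_eq_zero] at e
    rw [e, isCoprime_zero_left, Int.isUnit_iff] at hc
    have := GaussDuplication.disc_mod_four g
    omega
  rw [hcard, Finset.card_eq_sum_card_fiberwise hmaps, Nat.cast_sum]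
  refine Finset.sum_congr rfl fun k hk => ?_
  rw [Finset.mem_Icc] at hk
  have hiff : ∀ z : ℤ, 0 ≤ z → z.natAbs = k → (IsCoprime z D ↔ k.Coprime D.natAbs) :=
    fun z hz e => by rw [Int.isCoprime_iff_nat_coprime, e]
  split_ifs with hc
  · rw [← FormCount.Summary.card_congr_of_equivalent hfg, ← Nat.card_eq_finsetCard]
    congr 1
    refine Nat.card_congr (Equiv.subtypeEquivRight fun v => ?_)
    have := hnn v.1 v.2
    simp only [hS, Finset.mem_filter, Set.Finite.mem_toFinset, Set.mem_ofPred_eq]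
    exact ⟨fun ⟨_, e⟩ => by omega,
      fun e => ⟨⟨by omega, (hiff _ this (by omega)).2 hc⟩, by omega⟩⟩
  · rw [Finset.filter_eq_empty_iff.2 fun v hv (e : (g.eval v.1 v.2).natAbs = k) =>
      hc ((hiff _ (hnn _ _) e).1 (Finset.mem_filter.1 hv).2), Finset.card_empty, Nat.cast_zero]

/-- **Dirichlet's class number formula.** -/
theorem lFunction_one_eq (hneg : D < 0) (hD4 : D % 4 = 0 ∨ D % 4 = 1) :
    haveI : NeZero D.natAbs := ⟨Int.natAbs_ne_zero.2 hneg.ne⟩
    DirichletCharacter.LFunction (chi hneg.ne hD4) 1 =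
      ((2 * π * Nat.card (FormClass D) / (autCount D * Real.sqrt D.natAbs) : ℝ) : ℂ) := by
  classical
  have : NeZero D.natAbs := ⟨Int.natAbs_ne_zero.2 hneg.ne⟩
  obtain ⟨R, hR⟩ := FormCount.Summary.exists_system hneg
  set χ := chi hneg.ne hD4
  set w : ℝ := (autCount D : ℝ) with hw
  have hw0 : w ≠ 0 := by rw [hw]; exact_mod_cast autCount_pos.ne'
  set P : ℝ := ∏ p ∈ D.natAbs.primeFactors, (1 - (p : ℝ)⁻¹)
  set f : ℕ → ℂ := ↗(1 : DirichletCharacter ℂ D.natAbs) ⍟ ↗χ with hf
  have hcop : ∀ {k : ℕ}, k.Coprime D.natAbs ↔ IsCoprime (k : ℤ) D := fun {k} => by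
    rw [Int.isCoprime_iff_nat_coprime, Int.natAbs_natCast]
  -- the coefficients are the numbers of representations
  have hcoef : ∀ k : ℕ, k ≠ 0 → f k = ((w⁻¹ * ∑ g ∈ R, if k.Coprime D.natAbs then
      (Nat.card {v : ℤ × ℤ // g.eval v.1 v.2 = k} : ℝ) else 0 : ℝ) : ℂ) := by
    intro k hk
    rw [hf, LSeries.convolution_def]
    beta_reduce
    split_ifs with hc
    · have e : (∑ g ∈ R, (Nat.card {v : ℤ × ℤ // g.eval v.1 v.2 = k} : ℝ)) =
          w * ∑ d ∈ k.divisors, (kronecker D d : ℝ) := by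
        have h := congrArg (fun z : ℤ => (z : ℝ)) (sum_card_reps hneg hD4 hR hk (hcop.1 hc))
        push_cast at h
        exact h
      rw [e, inv_mul_cancel_left₀ hw0, Nat.sum_divisorsAntidiagonal' (fun d e : ℕ =>
        (1 : DirichletCharacter ℂ D.natAbs) (d : ZMod D.natAbs) * χ (e : ZMod D.natAbs))]
      push_cast
      refine Finset.sum_congr rfl fun d hd => ?_
      rw [MulChar.one_apply ((ZMod.isUnit_iff_coprime _ _).2 (hc.coprime_dvd_left
        (Nat.div_dvd_of_dvd (Nat.dvd_of_mem_divisors hd)))), one_mul, chi_natCast _ _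
        (hcop.1 (hc.coprime_dvd_left (Nat.dvd_of_mem_divisors hd)))]
    · refine (Finset.sum_eq_zero fun x hx => ?_).trans (by simp)
      obtain ⟨hx, -⟩ := Nat.mem_divisorsAntidiagonal.1 hx
      by_cases h1 : x.1.Coprime D.natAbs
      · have h2 : ¬x.2.Coprime D.natAbs := fun h2 => hc (hx ▸ Nat.Coprime.mul_left h1 h2)
        rw [MulChar.map_nonunit χ (mt (ZMod.isUnit_iff_coprime _ _).1 h2), mul_zero]
      · rw [MulChar.map_nonunit (1 : DirichletCharacter ℂ D.natAbs)
          (mt (ZMod.isUnit_iff_coprime _ _).1 h1), zero_mul]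
  -- their average
  have hlim : Tendsto (fun X : ℕ => (∑ k ∈ Finset.Icc 1 X, f k) / X) atTop
      (𝓝 ((R.card * (2 * π / (w * Real.sqrt D.natAbs)) * P : ℝ) : ℂ)) := by
    have hR' := (tendsto_finsetSum R fun g _ => tendsto_sum_reps hneg g).const_mul w⁻¹
    rw [Finset.sum_const, nsmul_eq_mul] at hR'
    rw [show (R.card : ℝ) * (2 * π / (w * Real.sqrt D.natAbs)) * P =
      w⁻¹ * ((R.card : ℝ) * (2 * π / Real.sqrt D.natAbs * P)) by ring]
    refine ((Complex.continuous_ofReal.tendsto _).comp hR').congr fun X => ?_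
    rw [Function.comp_apply, Finset.sum_congr rfl fun k hk => hcoef k (by
      rw [Finset.mem_Icc] at hk; omega), ← Complex.ofReal_sum, ← Complex.ofReal_natCast,
      ← Complex.ofReal_div]
    congr 1
    rw [← Finset.sum_div, ← Finset.mul_sum, Finset.sum_comm, mul_div_assoc]
  have hsum : ∀ s : ℝ, 1 < s → LSeriesSummable f s := fun s hs => by
    have hs' : 1 < (s : ℂ).re := by simpa using hs
    exact LSeriesSummable.convolution (ZMod.LSeriesSummable_of_one_lt_re _ hs')
      (ZMod.LSeriesSummable_of_one_lt_re _ hs')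
  have hres := LSeries_tendsto_sub_mul_nhds_one_of_tendsto_sum_div hlim hsum
  have hcast : Tendsto (fun s : ℝ => (s : ℂ)) (𝓝[>] 1) (𝓝[≠] (1 : ℂ)) := by
    refine tendsto_nhdsWithin_iff.2 ⟨?_, eventually_nhdsWithin_of_forall fun s hs => ?_⟩
    · exact (Complex.continuous_ofReal.tendsto' 1 1 (by simp)).mono_left nhdsWithin_le_nhds
    · simp only [Set.mem_compl_iff, Set.mem_singleton_iff, Complex.ofReal_eq_one]
      exact ne_of_gt hs
  have hne : χ ≠ 1 := chi_ne_one (GenusPrimes.not_isSquare_of_neg hneg) hneg.ne hD4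
  have hprod : Tendsto (fun s : ℝ => ((s : ℂ) - 1) * LSeries f s) (𝓝[>] 1)
      (𝓝 ((∏ p ∈ D.natAbs.primeFactors, (1 - (p : ℂ)⁻¹)) *
        DirichletCharacter.LFunction χ 1)) := by
    refine (((DirichletCharacter.LFunctionTrivChar_residue_one (N := D.natAbs)).comp hcast).mul
      (((DirichletCharacter.differentiable_LFunction hne).continuous.tendsto 1).comp
        (hcast.mono_right nhdsWithin_le_nhds))).congr'
      (eventually_nhdsWithin_of_forall fun s hs => ?_)
    have hs' : 1 < (s : ℂ).re := by simpa using hs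
    simp only [Function.comp_apply]
    rw [hf, LSeries_convolution' (ZMod.LSeriesSummable_of_one_lt_re _ hs')
      (ZMod.LSeriesSummable_of_one_lt_re _ hs'), DirichletCharacter.LFunctionTrivChar,
      DirichletCharacter.LFunction_eq_LSeries _ hs', DirichletCharacter.LFunction_eq_LSeries _ hs']
    ring
  have huniq := tendsto_nhds_unique hprod hres
  have hP : (∏ p ∈ D.natAbs.primeFactors, (1 - (p : ℂ)⁻¹)) = ((P : ℝ) : ℂ) := by simp [P]
  have hP0 : ((P : ℝ) : ℂ) ≠ 0 := by
    rw [Ne, Complex.ofReal_eq_zero, Finset.prod_eq_zero_iff]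
    rintro ⟨p, hp, e⟩
    have h2 := (Nat.prime_of_mem_primeFactors hp).two_le
    rw [sub_eq_zero, eq_comm, inv_eq_one] at e
    exact absurd e (by exact_mod_cast (by omega : p ≠ 1))
  rw [hP] at huniq
  refine mul_left_cancel₀ hP0 (huniq.trans ?_)
  rw [card_formClass hneg hR]
  push_cast
  ring

/-- The class numbers of `D` and `D f²`. -/
theorem card_formClass_mul_sq (hneg : D < 0) (hD4 : D % 4 = 0 ∨ D % 4 = 1) {f : ℕ} (hf : f ≠ 0) :
    (Nat.card (FormClass (D * (f : ℤ) ^ 2)) : ℝ) / autCount (D * (f : ℤ) ^ 2) =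
      Nat.card (FormClass D) / autCount D *
        (f * ∏ p ∈ f.primeFactors, (1 - (kronecker D p : ℝ) / p)) := by
  classical
  obtain ⟨E, hE⟩ : ∃ E, E = D * (f : ℤ) ^ 2 := ⟨_, rfl⟩
  have hf2 : (0 : ℤ) < (f : ℤ) ^ 2 := by positivity
  have hEneg : E < 0 := hE ▸ mul_neg_of_neg_of_pos hneg hf2
  have hE4 : E % 4 = 0 ∨ E % 4 = 1 := by
    obtain ⟨i, hi | hi⟩ := Int.even_or_odd' (f : ℤ)
    · exact Or.inl (by rw [hE, hi, show D * (2 * i) ^ 2 = 4 * (D * i ^ 2) by ring]; omega)
    · rw [hE, hi, show D * (2 * i + 1) ^ 2 = D + 4 * (D * (i ^ 2 + i)) by ring]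
      omega
  subst hE
  have : NeZero D.natAbs := ⟨Int.natAbs_ne_zero.2 hneg.ne⟩
  have : NeZero (D * (f : ℤ) ^ 2).natAbs := ⟨Int.natAbs_ne_zero.2 hEneg.ne⟩
  have hN : (D * (f : ℤ) ^ 2).natAbs = D.natAbs * f ^ 2 := by
    rw [Int.natAbs_mul, Int.natAbs_pow, Int.natAbs_natCast]
  have hdvd : D.natAbs ∣ (D * (f : ℤ) ^ 2).natAbs := ⟨_, hN⟩
  have h := lFunction_one_eq hEneg hE4
  rw [chi_changeLevel hneg.ne hD4 hf hEneg.ne hE4 hdvd,
    DirichletCharacter.LFunction_changeLevel hdvd _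
      (Or.inl (chi_ne_one (GenusPrimes.not_isSquare_of_neg hneg) hneg.ne hD4)),
    lFunction_one_eq hneg hD4] at h
  have hprod : ∏ p ∈ (D * (f : ℤ) ^ 2).natAbs.primeFactors,
      (1 - chi hneg.ne hD4 (p : ZMod D.natAbs) * (p : ℂ) ^ (-(1 : ℂ))) =
      ((∏ p ∈ f.primeFactors, (1 - (kronecker D p : ℝ) / p) : ℝ) : ℂ) := by
    have hval : ∀ p : ℕ, p.Prime → chi hneg.ne hD4 (p : ZMod D.natAbs) = (kronecker D p : ℂ) :=
      fun p hp => by
      by_cases hpD : (p : ℤ) ∣ D
      · rw [chi_eq_zero _ _ fun h => (Nat.prime_iff_prime_int.1 hp).not_isUnit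
          (h.isUnit_of_dvd' dvd_rfl hpD), kronecker_eq_zero hp hpD, Int.cast_zero]
      · exact chi_natCast _ _ ((Nat.prime_iff_prime_int.1 hp).coprime_iff_not_dvd.2 hpD)
    rw [hN, Nat.primeFactors_mul (Int.natAbs_ne_zero.2 hneg.ne) (pow_ne_zero 2 hf),
      Nat.primeFactors_pow _ two_ne_zero]
    push_cast
    rw [← Finset.prod_subset (Finset.subset_union_right (s₁ := D.natAbs.primeFactors))
      fun p hp hpf => by
        have hpD := (Finset.mem_union.1 hp).resolve_right hpf
        rw [hval p (Nat.prime_of_mem_primeFactors hpD), kronecker_eq_zero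
          (Nat.prime_of_mem_primeFactors hpD)
          (Int.natCast_dvd.2 (Nat.dvd_of_mem_primeFactors hpD))]
        simp]
    refine Finset.prod_congr rfl fun p hp => ?_
    rw [hval p (Nat.prime_of_mem_primeFactors hp), Complex.cpow_neg_one, div_eq_mul_inv]
  rw [hprod, ← Complex.ofReal_mul, Complex.ofReal_inj, hN, Nat.cast_mul, Nat.cast_pow,
    Real.sqrt_mul (Nat.cast_nonneg _), Real.sqrt_sq (Nat.cast_nonneg _)] at h
  have hs : 0 < Real.sqrt (D.natAbs : ℝ) :=
    Real.sqrt_pos.2 (by exact_mod_cast Int.natAbs_pos.2 hneg.ne)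
  have hf' : (f : ℝ) ≠ 0 := Nat.cast_ne_zero.2 hf
  have hw : (autCount D : ℝ) ≠ 0 := by exact_mod_cast autCount_pos.ne'
  have hw' : (autCount (D * (f : ℤ) ^ 2) : ℝ) ≠ 0 := by exact_mod_cast autCount_pos.ne'
  have hpi := Real.pi_pos.ne'
  field_simp at h ⊢
  linear_combination -h

end FA.FormClassFormula
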